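import Mathlib

set_option autoImplicit false

/-!
# S51, package C (independent route of helper39): the explicit map to `X₀(15)`

Pure algebra over `ℚ`.  Notation: `n = k² + 16`, `A = k - 22`, `m = n z² - 1`,
`G = n (4 z³ + z²) + 2 (k - 2) z + 1`,
`Psi = 3 n² z⁴ + n² z³ + 3 n (k - 2) z² + 3 n z + (k + 3)`.
-/

namespace Fermat.Agent.S51.AltC

/-- The biquadratic model of `X₀(15)`. -/
def Bq (u v : ℚ) : ℚ := 9 * u ^ 2 * v - u * v ^ 2 + 5 * u * v + u + v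

def nn (k : ℚ) : ℚ := k ^ 2 + 16
def mm (k z : ℚ) : ℚ := nn k * z ^ 2 - 1
def GG (k z : ℚ) : ℚ := nn k * (4 * z ^ 3 + z ^ 2) + 2 * (k - 2) * z + 1
def PsiKZ (k z : ℚ) : ℚ :=
  3 * nn k ^ 2 * z ^ 4 + nn k ^ 2 * z ^ 3 + 3 * nn k * (k - 2) * z ^ 2 + 3 * nn k * z + (k + 3)

/-- The cofactor in the main certificate. -/
def Qcof (k z : ℚ) : ℚ :=
  - 768*k^10*z^10 - 512*k^10*z^9 - 117*k^10*z^8 - 9*k^10*z^7 - 836*k^9*z^8 - 388*k^9*z^7 - 45*k^9*z^6 - 61440*k^8*z^10 - 40960*k^8*z^9 - 6068*k^8*z^8 + 476*k^8*z^7 - 260*k^8*z^6 - 85*k^8*z^5 - 53504*k^7*z^8 - 24832*k^7*z^7 - 540*k^7*z^6 + 420*k^7*z^5 - 65*k^7*z^4 - 1966080*k^6*z^10 - 1310720*k^6*z^9 - 88832*k^6*z^8 + 53504*k^6*z^7 - 17120*k^6*z^6 - 5060*k^6*z^5 + 610*k^6*z^4 + 5*k^6*z^3 - 1284096*k^5*z^8 - 595968*k^5*z^7 + 43200*k^5*z^6 + 20160*k^5*z^5 - 4772*k^5*z^4 + 68*k^5*z^3 + 41*k^5*z^2 - 31457280*k^4*z^10 - 20971520*k^4*z^9 + 264192*k^4*z^8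 + 1468416*k^4*z^7 - 422400*k^4*z^6 - 112320*k^4*z^5 + 25624*k^4*z^4 + 244*k^4*z^3 - 228*k^4*z^2 + 25*k^4*z - 13697024*k^3*z^8 - 6356992*k^3*z^7 + 1059840*k^3*z^6 + 322560*k^3*z^5 - 102784*k^3*z^4 + 2176*k^3*z^3 + 1836*k^3*z^2 - 100*k^3*z + 5*k^3 - 251658240*k^2*z^10 - 167772160*k^2*z^9 + 15597568*k^2*z^8 + 16646144*k^2*z^7 - 4628480*k^2*z^6 - 1100800*k^2*z^5 + 351488*k^2*z^4 + 3968*k^2*z^3 - 5824*k^2*z^2 + 500*k^2*z - 5*k^2 - 54788096*k*z^8 - 25427968*k*z^7 + 6635520*k*z^6 + 1720320*k*z^5 - 689152*k*z^4 + 17408*k*z^3 + 18880*k*z^2 - 1600*k*z - 40*k - 805306368*z^10 - 536870912*z^9 + 93061120*z^8 + 68943872*z^7 - 19005440*z^6 - 4014080*z^5 + 1562624*z^4 + 21504*z^3 - 34816*z^2 + 1600*z + 60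

/-- Main certificate (checked by `ring`). -/
theorem main_certificate (k z : ℚ) :
    (k - 22) ^ 2 * mm k z ^ 5 * (mm k z - 4) - (9 * mm k z + 4) * nn k ^ 2 * GG k z ^ 4
      - 10 * nn k * (k - 22) * GG k z ^ 2 * mm k z ^ 3 = Qcof k z * PsiKZ k z := by
  unfold mm GG PsiKZ Qcof nn
  ring

/-- `Bq u v = 0` follows from `PsiKZ k z = 0` for the explicit `u, v`. -/
theorem Bq_eq_zero (k z : ℚ) (hA : k - 22 ≠ 0) (hG : GG k z ≠ 0) (hm : mm k z ≠ 0)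
    (hΨ : PsiKZ k z = 0) :
    Bq (2 * (k - 22) * mm k z ^ 2 / (9 * nn k * GG k z ^ 2))
       (-2 * nn k * GG k z ^ 2 / ((k - 22) * mm k z ^ 3)) = 0 := by
  have hn : nn k ≠ 0 := by unfold nn; positivity
  have hcert := main_certificate k z
  rw [hΨ, mul_zero] at hcert
  have key : Bq (2 * (k - 22) * mm k z ^ 2 / (9 * nn k * GG k z ^ 2))
       (-2 * nn k * GG k z ^ 2 / ((k - 22) * mm k z ^ 3)) *
       (9 * nn k * (k - 22) * GG k z ^ 2 * mm k z ^ 4) =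
      2 * ((k - 22) ^ 2 * mm k z ^ 5 * (mm k z - 4) - (9 * mm k z + 4) * nn k ^ 2 * GG k z ^ 4
      - 10 * nn k * (k - 22) * GG k z ^ 2 * mm k z ^ 3) := by
    unfold Bq
    field_simp
    ring
  rw [hcert, mul_zero] at key
  have hne : 9 * nn k * (k - 22) * GG k z ^ 2 * mm k z ^ 4 ≠ 0 := by positivity
  exact (mul_eq_zero.mp key).resolve_right hne

/-- From a rational point of the biquadratic model with `v ≠ 0`, the four `t`-values. -/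
theorem t_values_of_Bq
    (hD : ∀ v y : ℚ, y ^ 2 = (v ^ 2 + v - 1) * (v ^ 2 - 11 * v - 1) → v = 0 ∨ v = -2 ∨ v = 1 / 2)
    (u v : ℚ) (hv : v ≠ 0) (hB : Bq u v = 0) :
    729 * u ^ 3 * v ^ 2 = -32 ∨ 729 * u ^ 3 * v ^ 2 = -2 ∨ 729 * u ^ 3 * v ^ 2 = -729 / 2 ∨
      729 * u ^ 3 * v ^ 2 = -729 / 32 := by
  have hY : (18 * u * v - v ^ 2 + 5 * v + 1) ^ 2 = (v ^ 2 + v - 1) * (v ^ 2 - 11 * v - 1) := by
    unfold Bq at hB
    linear_combination 36 * v * hB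
  rcases hD v _ hY with h | h | h
  · exact absurd h hv
  · subst h
    unfold Bq at hB
    have h2 : (9 * u + 2) * (2 * u + 1) = 0 := by linear_combination -hB
    rcases mul_eq_zero.mp h2 with h3 | h3
    · have : u = -2 / 9 := by linarith
      subst this; left; norm_num
    · have : u = -1 / 2 := by linarith
      subst this; right; right; left; norm_num
  · subst h
    unfold Bq at hB
    have h2 : (9 * u + 2) * (2 * u + 1) = 0 := by linear_combination 4 * hB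
    rcases mul_eq_zero.mp h2 with h3 | h3
    · have : u = -2 / 9 := by linarith
      subst this; right; left; norm_num
    · have : u = -1 / 2 := by linarith
      subst this; right; right; right; norm_num

end Fermat.Agent.S51.AltC
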