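import Fermat.Agent.S51.AltC.Gauge
import Fermat.Agent.S51.Defs

set_option autoImplicit false

namespace Fermat.Agent.S51.AltC

open Fermat.Agent.S51

/-- The `j`-relation for the 3-isogeny parameter `t = Δ / ψ₂²(x₀)²`, abstract form. -/
theorem c4_rel_abstract (c4 D B2 B4 B6 : ℚ) (hc4 : c4 = B2 ^ 2 - 24 * B4)
    (hD : D = -8 * B4 ^ 3 - 27 * B6 ^ 2 + 9 * B2 * B4 * B6) (hB : B2 * B6 = B4 ^ 2)
    (h6 : B6 ≠ 0) :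
    c4 ^ 3 * (D / B6 ^ 2) = D * (D / B6 ^ 2 + 27) * (D / B6 ^ 2 + 3) ^ 3 := by
  have hB2 : B2 = B4 ^ 2 / B6 := by field_simp; linarith
  subst hB2
  subst hc4 hD
  field_simp
  ring

/-- The `j`-relation for `t = Δ / ψ₂²(x₀)²` when `ψ₃(x₀) = 0`, in terms of `b`-invariants. -/
theorem c4_rel (b2 b4 b6 b8 x0 : ℚ) (hrel : 4 * b8 = b2 * b6 - b4 ^ 2)
    (h3 : 3 * x0 ^ 4 + b2 * x0 ^ 3 + 3 * b4 * x0 ^ 2 + 3 * b6 * x0 + b8 = 0)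
    (hg : 4 * x0 ^ 3 + b2 * x0 ^ 2 + 2 * b4 * x0 + b6 ≠ 0) :
    let D := -b2 ^ 2 * b8 - 8 * b4 ^ 3 - 27 * b6 ^ 2 + 9 * b2 * b4 * b6
    let t := D / (4 * x0 ^ 3 + b2 * x0 ^ 2 + 2 * b4 * x0 + b6) ^ 2
    (b2 ^ 2 - 24 * b4) ^ 3 * t = D * (t + 27) * (t + 3) ^ 3 := by
  intro D t
  refine c4_rel_abstract (b2 ^ 2 - 24 * b4) D (b2 + 12 * x0) (b4 + x0 * b2 + 6 * x0 ^ 2)
    (4 * x0 ^ 3 + b2 * x0 ^ 2 + 2 * b4 * x0 + b6) (by ring) ?_ ?_ hg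
  · simp only [D]
    linear_combination (6 * b2 * x0 + 36 * x0 ^ 2) * hrel - (b2 + 12 * x0) ^ 2 * h3
  · linear_combination 4 * h3 - hrel

/-- If `ψ₃(x₀) = 0` and `Δ ≠ 0` then `ψ₂²(x₀) ≠ 0`. -/
theorem psi2sq_ne_zero (b2 b4 b6 b8 x0 : ℚ) (hrel : 4 * b8 = b2 * b6 - b4 ^ 2)
    (h3 : 3 * x0 ^ 4 + b2 * x0 ^ 3 + 3 * b4 * x0 ^ 2 + 3 * b6 * x0 + b8 = 0)
    (hΔ : -b2 ^ 2 * b8 - 8 * b4 ^ 3 - 27 * b6 ^ 2 + 9 * b2 * b4 * b6 ≠ 0) :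
    4 * x0 ^ 3 + b2 * x0 ^ 2 + 2 * b4 * x0 + b6 ≠ 0 := by
  intro hg
  apply hΔ
  have hB4 : (b4 + x0 * b2 + 6 * x0 ^ 2) ^ 2 = 0 := by
    linear_combination (b2 + 12 * x0) * hg - 4 * h3 + hrel
  have hB4' : b4 + x0 * b2 + 6 * x0 ^ 2 = 0 := by
    exact pow_eq_zero_iff (two_ne_zero) |>.mp hB4
  have hb4 : b4 = -(x0 * b2 + 6 * x0 ^ 2) := by linarith
  have hb6 : b6 = -(4 * x0 ^ 3 + b2 * x0 ^ 2 + 2 * b4 * x0) := by linarith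
  have hb8 : b8 = -(3 * x0 ^ 4 + b2 * x0 ^ 3 + 3 * b4 * x0 ^ 2 + 3 * b6 * x0) := by linarith
  rw [hb8, hb6, hb4]
  ring

section Field

variable {K : Type*} [Field K] [CharZero K]

/-- Symmetric consequences of the two duplication relations of a `5`-cycle `x₁ ↦ x₂ ↦ x₁`. -/
theorem sym_rel (b2 b4 b6 b8 x1 x2 : K) (hne : x1 ≠ x2)
    (hd1 : x2 * (4 * x1 ^ 3 + b2 * x1 ^ 2 + 2 * b4 * x1 + b6) =
      x1 ^ 4 - b4 * x1 ^ 2 - 2 * b6 * x1 - b8)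
    (hd2 : x1 * (4 * x2 ^ 3 + b2 * x2 ^ 2 + 2 * b4 * x2 + b6) =
      x2 ^ 4 - b4 * x2 ^ 2 - 2 * b6 * x2 - b8) :
    let r := (x1 + x2) / 2
    let e := ((x1 - x2) / 2) ^ 2
    (b6 + 2 * r * b4 + r ^ 2 * b2 + 4 * r ^ 3 = (b2 + 12 * r) * e) ∧
    (b8 + 3 * r * b6 + 3 * r ^ 2 * b4 + r ^ 3 * b2 + 3 * r ^ 4 =
      5 * e ^ 2 + (b4 + r * b2 + 6 * r ^ 2) * e) := by
  intro r e
  constructor
  · have h : (x1 - x2) * ((b2 + 12 * r) * e - (b6 + 2 * r * b4 + r ^ 2 * b2 + 4 * r ^ 3)) = 0 := by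
      simp only [r, e]
      linear_combination -hd1 + hd2
    have := (mul_eq_zero.mp h).resolve_left (sub_ne_zero.mpr hne)
    linear_combination -this
  · simp only [r, e]
    linear_combination (1 / 2 : K) * hd1 + (1 / 2 : K) * hd2

end Field

/-- Package C of S51 (`exists_t`), assuming the rational points of Fricke's quartic model of
`X₀(15)` (package D). -/
theorem exists_t_of_fricke {K : Type*} [Field K] [Algebra ℚ K]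
    (hD : ∀ v y : ℚ, y ^ 2 = (v ^ 2 + v - 1) * (v ^ 2 - 11 * v - 1) → v = 0 ∨ v = -2 ∨ v = 1 / 2)
    (E : WeierstrassCurve ℚ) (hΔ : E.Δ ≠ 0)
    (x₀ : ℚ) (h3 : psi3 E x₀ = 0)
    (s₁ s₂ : ℚ) (x₁ x₂ : K)
    (hs₁ : x₁ + x₂ = algebraMap ℚ K s₁) (hs₂ : x₁ * x₂ = algebraMap ℚ K s₂) (hne : x₁ ≠ x₂)
    (h1 : psi2sq (E.map (algebraMap ℚ K)) x₁ ≠ 0) (h2 : psi2sq (E.map (algebraMap ℚ K)) x₂ ≠ 0)
    (hd1 : x₂ * psi2sq (E.map (algebraMap ℚ K)) x₁ = phi2 (E.map (algebraMap ℚ K)) x₁)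
    (hd2 : x₁ * psi2sq (E.map (algebraMap ℚ K)) x₂ = phi2 (E.map (algebraMap ℚ K)) x₂) :
    ∃ t : ℚ, (t = -32 ∨ t = -2 ∨ t = -729 / 2 ∨ t = -729 / 32) ∧
      E.c₄ ^ 3 * t = E.Δ * (t + 27) * (t + 3) ^ 3 := by
  have hinj : Function.Injective (algebraMap ℚ K) := (algebraMap ℚ K).injective
  have : CharZero K := charZero_of_injective_algebraMap hinj
  have hrel : 4 * E.b₈ = E.b₂ * E.b₆ - E.b₄ ^ 2 := E.b_relation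
  simp only [psi2sq, phi2, WeierstrassCurve.map_b₂, WeierstrassCurve.map_b₄,
    WeierstrassCurve.map_b₆, WeierstrassCurve.map_b₈] at h1 h2 hd1 hd2
  simp only [psi3] at h3
  have hΔ' : -E.b₂ ^ 2 * E.b₈ - 8 * E.b₄ ^ 3 - 27 * E.b₆ ^ 2 + 9 * E.b₂ * E.b₄ * E.b₆ ≠ 0 := by
    have : E.Δ = -E.b₂ ^ 2 * E.b₈ - 8 * E.b₄ ^ 3 - 27 * E.b₆ ^ 2 + 9 * E.b₂ * E.b₄ * E.b₆ := rfl
    rwa [this] at hΔ
  -- abbreviations
  have hc4 : E.c₄ = E.b₂ ^ 2 - 24 * E.b₄ := rfl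
  have hΔeq : E.Δ = -E.b₂ ^ 2 * E.b₈ - 8 * E.b₄ ^ 3 - 27 * E.b₆ ^ 2 + 9 * E.b₂ * E.b₄ * E.b₆ := rfl
  generalize E.b₂ = b2 at *
  generalize E.b₄ = b4 at *
  generalize E.b₆ = b6 at *
  generalize E.b₈ = b8 at *
  -- the symmetric relations in K
  obtain ⟨h6K, h8K⟩ := sym_rel (algebraMap ℚ K b2) (algebraMap ℚ K b4) (algebraMap ℚ K b6)
    (algebraMap ℚ K b8) x₁ x₂ hne hd1 hd2
  -- rational gauge data
  obtain ⟨r, hr⟩ : ∃ r : ℚ, r = s₁ / 2 := ⟨_, rfl⟩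
  obtain ⟨e, he⟩ : ∃ e : ℚ, e = s₁ ^ 2 / 4 - s₂ := ⟨_, rfl⟩
  have hrK : algebraMap ℚ K r = (x₁ + x₂) / 2 := by
    rw [hr, hs₁, map_div₀, map_ofNat]
  have heK : algebraMap ℚ K e = ((x₁ - x₂) / 2) ^ 2 := by
    rw [he, map_sub, map_div₀, map_pow, ← hs₁, ← hs₂, map_ofNat]; ring
  have he0 : e ≠ 0 := by
    intro h
    rw [h, map_zero] at heK
    have : (x₁ - x₂) / 2 = 0 := by
      exact pow_eq_zero_iff (two_ne_zero) |>.mp heK.symm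
    have h2 : x₁ - x₂ = 0 := by
      rcases div_eq_zero_iff.mp this with h | h
      · exact h
      · exact absurd h two_ne_zero
    exact hne (sub_eq_zero.mp h2)
  rw [← hrK, ← heK] at h6K h8K
  have h6 : b6 + 2 * r * b4 + r ^ 2 * b2 + 4 * r ^ 3 = (b2 + 12 * r) * e := by
    apply hinj
    simpa only [map_add, map_mul, map_pow, map_ofNat] using h6K
  have h8 : b8 + 3 * r * b6 + 3 * r ^ 2 * b4 + r ^ 3 * b2 + 3 * r ^ 4 =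
      5 * e ^ 2 + (b4 + r * b2 + 6 * r ^ 2) * e := by
    apply hinj
    simpa only [map_add, map_mul, map_pow, map_ofNat] using h8K
  -- psi2sq(x₀) ≠ 0
  have hg := psi2sq_ne_zero b2 b4 b6 b8 x₀ hrel h3 hΔ'
  -- x₀ is not a 5-torsion abscissa
  have hψ1 : ∀ (a b : K), a ≠ b → (4 * a ^ 3 + algebraMap ℚ K b2 * a ^ 2 + 2 * algebraMap ℚ K b4 * a +
      algebraMap ℚ K b6 ≠ 0) →
      (b * (4 * a ^ 3 + algebraMap ℚ K b2 * a ^ 2 + 2 * algebraMap ℚ K b4 * a + algebraMap ℚ K b6) =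
        a ^ 4 - algebraMap ℚ K b4 * a ^ 2 - 2 * algebraMap ℚ K b6 * a - algebraMap ℚ K b8) →
      algebraMap ℚ K x₀ ≠ a := by
    intro a b hab hga hda hx
    have h3K : 3 * a ^ 4 + algebraMap ℚ K b2 * a ^ 3 + 3 * algebraMap ℚ K b4 * a ^ 2 +
        3 * algebraMap ℚ K b6 * a + algebraMap ℚ K b8 = 0 := by
      rw [← hx]
      have := congrArg (algebraMap ℚ K) h3
      simpa only [map_add, map_mul, map_pow, map_ofNat, map_zero] using this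
    have : (b - a) * (4 * a ^ 3 + algebraMap ℚ K b2 * a ^ 2 + 2 * algebraMap ℚ K b4 * a +
      algebraMap ℚ K b6) = 0 := by linear_combination hda - h3K
    rcases mul_eq_zero.mp this with h | h
    · exact hab (sub_eq_zero.mp h).symm
    · exact hga h
  have hx1 := hψ1 x₁ x₂ hne h1 hd1
  have hx2 := hψ1 x₂ x₁ (Ne.symm hne) h2 hd2
  have hκ : (x₀ - r) ^ 2 - e ≠ 0 := by
    intro h
    have hK := congrArg (algebraMap ℚ K) h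
    rw [map_sub, map_pow, map_sub, hrK, heK, map_zero] at hK
    have : (algebraMap ℚ K x₀ - x₁) * (algebraMap ℚ K x₀ - x₂) = 0 := by linear_combination hK
    rcases mul_eq_zero.mp this with h | h
    · exact hx1 (sub_eq_zero.mp h)
    · exact hx2 (sub_eq_zero.mp h)
  -- apply the gauge lemma
  have key := t_values_gauge hD (b2 + 12 * r) (b4 + r * b2 + 6 * r ^ 2)
    (b6 + 2 * r * b4 + r ^ 2 * b2 + 4 * r ^ 3)
    (b8 + 3 * r * b6 + 3 * r ^ 2 * b4 + r ^ 3 * b2 + 3 * r ^ 4) e (x₀ - r)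
    (by linear_combination hrel) he0 h6 h8
    (by linear_combination h3)
    (by
      have : 4 * (x₀ - r) ^ 3 + (b2 + 12 * r) * (x₀ - r) ^ 2 +
          2 * (b4 + r * b2 + 6 * r ^ 2) * (x₀ - r) + (b6 + 2 * r * b4 + r ^ 2 * b2 + 4 * r ^ 3) =
          4 * x₀ ^ 3 + b2 * x₀ ^ 2 + 2 * b4 * x₀ + b6 := by ring
      rw [this]; exact hg)
    (by
      have : -(b2 + 12 * r) ^ 2 * (b8 + 3 * r * b6 + 3 * r ^ 2 * b4 + r ^ 3 * b2 + 3 * r ^ 4) -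
          8 * (b4 + r * b2 + 6 * r ^ 2) ^ 3 - 27 * (b6 + 2 * r * b4 + r ^ 2 * b2 + 4 * r ^ 3) ^ 2 +
          9 * (b2 + 12 * r) * (b4 + r * b2 + 6 * r ^ 2) * (b6 + 2 * r * b4 + r ^ 2 * b2 + 4 * r ^ 3) =
          -b2 ^ 2 * b8 - 8 * b4 ^ 3 - 27 * b6 ^ 2 + 9 * b2 * b4 * b6 := by
        linear_combination (-6 * b2 * r - 36 * r ^ 2) * hrel
      rw [this]; exact hΔ')
    hκ
  have e1 : 4 * (x₀ - r) ^ 3 + (b2 + 12 * r) * (x₀ - r) ^ 2 +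
      2 * (b4 + r * b2 + 6 * r ^ 2) * (x₀ - r) + (b6 + 2 * r * b4 + r ^ 2 * b2 + 4 * r ^ 3) =
      4 * x₀ ^ 3 + b2 * x₀ ^ 2 + 2 * b4 * x₀ + b6 := by ring
  have e2 : -(b2 + 12 * r) ^ 2 * (b8 + 3 * r * b6 + 3 * r ^ 2 * b4 + r ^ 3 * b2 + 3 * r ^ 4) -
      8 * (b4 + r * b2 + 6 * r ^ 2) ^ 3 - 27 * (b6 + 2 * r * b4 + r ^ 2 * b2 + 4 * r ^ 3) ^ 2 +
      9 * (b2 + 12 * r) * (b4 + r * b2 + 6 * r ^ 2) * (b6 + 2 * r * b4 + r ^ 2 * b2 + 4 * r ^ 3) =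
      -b2 ^ 2 * b8 - 8 * b4 ^ 3 - 27 * b6 ^ 2 + 9 * b2 * b4 * b6 := by
    linear_combination (-6 * b2 * r - 36 * r ^ 2) * hrel
  simp only [e1, e2] at key
  refine ⟨_, key, ?_⟩
  rw [hc4, hΔeq]
  exact c4_rel b2 b4 b6 b8 x₀ hrel h3 hg

end Fermat.Agent.S51.AltC
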