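import Fermat.Agent.S51.AltC.Core

set_option autoImplicit false

namespace Fermat.Agent.S51.AltC

/-- Shape lemma in the `(β, k, z)` parametrisation. -/
theorem t_values_param
    (hD : ∀ v y : ℚ, y ^ 2 = (v ^ 2 + v - 1) * (v ^ 2 - 11 * v - 1) → v = 0 ∨ v = -2 ∨ v = 1 / 2)
    (β k z : ℚ) (hβ : β ≠ 0) (hA : k - 22 ≠ 0) (hG : GG k z ≠ 0) (hm : mm k z ≠ 0)
    (hΨ : PsiKZ k z = 0) :
    let t := 32 * (k - 22) / (nn k * GG k z ^ 2)
    t = -32 ∨ t = -2 ∨ t = -729 / 2 ∨ t = -729 / 32 := by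
  intro t
  have hn : nn k ≠ 0 := by unfold nn; positivity
  have hB := Bq_eq_zero k z hA hG hm hΨ
  set u := 2 * (k - 22) * mm k z ^ 2 / (9 * nn k * GG k z ^ 2) with hu
  set v := -2 * nn k * GG k z ^ 2 / ((k - 22) * mm k z ^ 3) with hv
  have hv0 : v ≠ 0 := by
    rw [hv]; positivity
  have ht : 729 * u ^ 3 * v ^ 2 = t := by
    rw [hu, hv]; simp only [t]; field_simp; ring
  have := t_values_of_Bq hD u v hv0 hB
  rwa [ht] at this

/-- Gauge-fixed form: `β = b₂'`, `B4 = b₄'`, `B6 = b₆'`, `B8 = b₈'` are the `b`-invariants after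
translating `x` by `r = (x₁ + x₂)/2`, `e = ((x₁ - x₂)/2)²`, `x' = x₀ - r`. -/
theorem t_values_gauge
    (hD : ∀ v y : ℚ, y ^ 2 = (v ^ 2 + v - 1) * (v ^ 2 - 11 * v - 1) → v = 0 ∨ v = -2 ∨ v = 1 / 2)
    (β B4 B6 B8 e x' : ℚ)
    (hrel : 4 * B8 = β * B6 - B4 ^ 2) (he : e ≠ 0) (h6 : B6 = β * e) (h8 : B8 = 5 * e ^ 2 + B4 * e)
    (hψ : 3 * x' ^ 4 + β * x' ^ 3 + 3 * B4 * x' ^ 2 + 3 * B6 * x' + B8 = 0)
    (hγ : 4 * x' ^ 3 + β * x' ^ 2 + 2 * B4 * x' + B6 ≠ 0)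
    (hΔ : -β ^ 2 * B8 - 8 * B4 ^ 3 - 27 * B6 ^ 2 + 9 * β * B4 * B6 ≠ 0)
    (hκ : x' ^ 2 - e ≠ 0) :
    let t := (-β ^ 2 * B8 - 8 * B4 ^ 3 - 27 * B6 ^ 2 + 9 * β * B4 * B6) /
      (4 * x' ^ 3 + β * x' ^ 2 + 2 * B4 * x' + B6) ^ 2
    t = -32 ∨ t = -2 ∨ t = -729 / 2 ∨ t = -729 / 32 := by
  intro t
  subst h6 h8
  have hsq : (B4 + 2 * e) ^ 2 = e * (β ^ 2 - 16 * e) := by linear_combination hrel
  obtain ⟨k, hk⟩ : ∃ k : ℚ, B4 = e * (k - 2) := ⟨(B4 + 2 * e) / e, by field_simp; ring⟩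
  subst hk
  have hen : e * nn k = β ^ 2 := by
    unfold nn
    have h1 : e * (e * (k ^ 2 + 16) - β ^ 2) = 0 := by linear_combination hsq
    have h2 := (mul_eq_zero.mp h1).resolve_left he
    linarith
  have hn : nn k ≠ 0 := by unfold nn; positivity
  have hβ : β ≠ 0 := by
    rintro rfl
    have : e * nn k = 0 := by rw [hen]; ring
    rcases mul_eq_zero.mp this with h | h
    · exact he h
    · exact hn h
  have he' : e = β ^ 2 / nn k := by field_simp; linarith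
  subst he'
  obtain ⟨z, hz⟩ : ∃ z : ℚ, x' = β * z := ⟨x' / β, by field_simp⟩
  subst hz
  -- shape identities
  have s1 : 3 * (β * z) ^ 4 + β * (β * z) ^ 3 + 3 * (β ^ 2 / nn k * (k - 2)) * (β * z) ^ 2 +
      3 * (β * (β ^ 2 / nn k)) * (β * z) +
      (5 * (β ^ 2 / nn k) ^ 2 + β ^ 2 / nn k * (k - 2) * (β ^ 2 / nn k)) =
      β ^ 4 * PsiKZ k z / nn k ^ 2 := by
    unfold PsiKZ; field_simp; ring
  have s2 : 4 * (β * z) ^ 3 + β * (β * z) ^ 2 + 2 * (β ^ 2 / nn k * (k - 2)) * (β * z) +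
      β * (β ^ 2 / nn k) = β ^ 3 * GG k z / nn k := by
    unfold GG; field_simp
  have s3 : -β ^ 2 * (5 * (β ^ 2 / nn k) ^ 2 + β ^ 2 / nn k * (k - 2) * (β ^ 2 / nn k)) -
      8 * (β ^ 2 / nn k * (k - 2)) ^ 3 - 27 * (β * (β ^ 2 / nn k)) ^ 2 +
      9 * β * (β ^ 2 / nn k * (k - 2)) * (β * (β ^ 2 / nn k)) =
      32 * β ^ 6 * (k - 22) / nn k ^ 3 := by
    have : nn k = k ^ 2 + 16 := rfl
    field_simp
    rw [this]; ring
  have s4 : (β * z) ^ 2 - β ^ 2 / nn k = β ^ 2 * mm k z / nn k := by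
    unfold mm; field_simp
  have hΨ : PsiKZ k z = 0 := by
    rw [s1] at hψ
    have h1 : β ^ 4 * PsiKZ k z = 0 := by
      have := div_eq_zero_iff.mp hψ
      rcases this with h | h
      · exact h
      · exact absurd h (pow_ne_zero 2 hn)
    exact (mul_eq_zero.mp h1).resolve_left (pow_ne_zero 4 hβ)
  have hG : GG k z ≠ 0 := by
    intro h; apply hγ; rw [s2, h]; simp
  have hA : k - 22 ≠ 0 := by
    intro h; apply hΔ; rw [s3, h]; simp
  have hm : mm k z ≠ 0 := by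
    intro h; apply hκ; rw [s4, h]; simp
  have key := t_values_param hD β k z hβ hA hG hm hΨ
  have ht : t = 32 * (k - 22) / (nn k * GG k z ^ 2) := by
    simp only [t]
    rw [s2, s3]; field_simp
  rw [ht]; exact key

end Fermat.Agent.S51.AltC
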